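import Fermat.Agent.Degen.Pic
import Fermat.Agent.AtkinLehner.Norm

/-!
# Degeneracy maps commute with Hecke operators on `Pic⁰`

`N d ∣ M`, `δ : F_N → F_M`, `f ↦ f(q^d)`; `ℓ ∤ M` prime.
-/

set_option autoImplicit false
set_option linter.unusedSectionVars false
set_option linter.style.haveILetI false

noncomputable section

open ModularCurve AlgebraicCurve Fermat.Agent.ModPoly Polynomial IntermediateField

namespace Fermat.Agent.Degen

open Fermat.Agent.ModDeg Fermat.Agent.HeckeRed Fermat.Agent.AtkinLehner Fermat.Agent.FunField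

section Gen

variable {F F' Ω T : Type*} [Field F] [Field F'] [Field Ω] [Algebra F F'] [Fintype T]
  [FiniteDimensional F F'] (ι : F →+* Ω) (σ : T → F' →+* Ω)

/-- An element with `[F' : F]` distinct conjugates generates. -/
theorem adjoin_eq_top_of_conj (hσ : ∀ i x, σ i (algebraMap F F' x) = ι x)
    (hcard : Fintype.card T = Module.finrank F F') (x : F')
    (hinj : Function.Injective fun i => σ i x) : F⟮x⟯ = ⊤ := by
  classical
  rw [Field.primitive_element_iff_minpoly_natDegree_eq]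
  apply le_antisymm
  · exact minpoly.natDegree_le x
  · rw [← hcard]
    have hne : (minpoly F x).map ι ≠ 0 :=
      (Polynomial.map_ne_zero_iff ι.injective).mpr
        (minpoly.ne_zero (Algebra.IsIntegral.isIntegral x))
    have hroot : ∀ i, ((minpoly F x).map ι).IsRoot (σ i x) := by
      intro i
      rw [Polynomial.IsRoot, Polynomial.eval_map]
      have h1 : ι = (σ i).comp (algebraMap F F') := by
        ext y
        exact (hσ i y).symm
      rw [h1, ← Polynomial.hom_eval₂]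
      have h2 : Polynomial.eval₂ (algebraMap F F') x (minpoly F x) = 0 := minpoly.aeval F x
      rw [h2, map_zero]
    calc Fintype.card T = (Finset.univ.image fun i => σ i x).card := by
          rw [Finset.card_image_of_injective _ hinj, Finset.card_univ]
      _ ≤ ((minpoly F x).map ι).roots.toFinset.card := by
          apply Finset.card_le_card
          intro y hy
          obtain ⟨i, -, rfl⟩ := Finset.mem_image.mp hy
          rw [Multiset.mem_toFinset, Polynomial.mem_roots hne]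
          exact hroot i
      _ ≤ Multiset.card ((minpoly F x).map ι).roots := Multiset.toFinset_card_le _
      _ ≤ ((minpoly F x).map ι).natDegree := Polynomial.card_roots' _
      _ = (minpoly F x).natDegree := Polynomial.natDegree_map ι

theorem subfield_eq_top_of_adjoin {x : F'} (h : F⟮x⟯ = ⊤) (S : Subfield F')
    (h1 : ∀ y : F, algebraMap F F' y ∈ S) (h2 : x ∈ S) : S = ⊤ := by
  let S' : IntermediateField F F' := { S with algebraMap_mem' := h1 }
  have h3 : F⟮x⟯ ≤ S' := by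
    rw [adjoin_simple_le_iff]
    exact h2
  rw [h, top_le_iff] at h3
  rw [eq_top_iff]
  intro y _
  have h4 : y ∈ S' := by rw [h3]; trivial
  exact h4

end Gen

section Mem

variable {K : Type*} [Field K]

theorem qExpand_mem_full {N M d : ℕ} [NeZero M] [NeZero d] (h : N * d ∣ M)
    {x : LaurentSeries K} (hx : x ∈ modularFunctionFieldFullC K N) :
    qExpand K d x ∈ modularFunctionFieldFullC K M := by
  have hNd : NeZero (N * d) := ⟨fun h0 => NeZero.ne M (Nat.eq_zero_of_zero_dvd (h0 ▸ h))⟩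
  have hN : NeZero N := ⟨fun h0 => hNd.out (by rw [h0, zero_mul])⟩
  have h1 := full_degeneracyC_map_le K N d
  exact full_degeneracyC_le K h (h1 ⟨x, hx, rfl⟩)

theorem coeff_vj_neg {d : ℕ} (hd : d ≠ 0) : (vj K d).coeff (-(d : ℤ)) = 1 := by
  haveI : NeZero d := ⟨hd⟩
  rw [vj_eq]
  have h := qExpand_coeff_mul (N := d) (jqModC K) (-1)
  rw [show (d : ℤ) * -1 = -(d : ℤ) by ring] at h
  rw [h]
  exact coeff_jqModC_neg_one K

theorem coeff_vj_of_not_dvd {d : ℕ} (hd : d ≠ 0) {n : ℤ} (hn : ¬ (d : ℤ) ∣ n) :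
    (vj K d).coeff n = 0 := by
  haveI : NeZero d := ⟨hd⟩
  rw [vj_eq]
  exact qExpand_coeff_of_not_dvd d _ hn

end Mem

variable {K : Type*} [Field K] [IsAlgClosed K] {M ℓ : ℕ} [hℓ : Fact ℓ.Prime]

section GenAlpha

variable (hMK : (M : K) ≠ 0) (hℓK : (ℓ : K) ≠ 0) (hℓM : ¬ ℓ ∣ M)

include hMK hℓK hℓM in
/-- `F_{Mℓ} = F_M (j(q^{dℓ}))` for `d ∣ M`. -/
theorem gen_alpha {d : ℕ} (hd : d ∣ M)
    (S : Subfield (modularFunctionFieldFullC K (M * ℓ)))
    (h1 : ∀ (x : LaurentSeries K) (_ : x ∈ modularFunctionFieldFullC K M)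
      (h : x ∈ modularFunctionFieldFullC K (M * ℓ)), ⟨x, h⟩ ∈ S)
    (h2 : ∀ h : vj K (d * ℓ) ∈ modularFunctionFieldFullC K (M * ℓ), ⟨vj K (d * ℓ), h⟩ ∈ S) :
    S = ⊤ := by
  have hM : M ≠ 0 := by rintro rfl; simp at hMK
  haveI : NeZero M := ⟨hM⟩
  haveI : NeZero ℓ := ⟨hℓ.out.ne_zero⟩
  haveI : NeZero (M * ℓ) := ⟨mul_ne_zero hM hℓ.out.ne_zero⟩
  have hd0 : d ≠ 0 := fun h0 => hM (Nat.eq_zero_of_zero_dvd (h0 ▸ hd))
  have hdℓ0 : d * ℓ ≠ 0 := mul_ne_zero hd0 hℓ.out.ne_zero
  have hle : modularFunctionFieldFullC K M ≤ modularFunctionFieldFullC K (M * ℓ) :=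
    full_degeneracyC_le K (Dvd.intro ℓ rfl)
  let α : modularFunctionFieldFullC K M →ₐ[K] modularFunctionFieldFullC K (M * ℓ) :=
    IntermediateField.inclusion hle
  have hα : ∀ x, (α x : LaurentSeries K) = x := fun x => rfl
  have hmem : vj K (d * ℓ) ∈ modularFunctionFieldFullC K (M * ℓ) :=
    vj_mem_full K hdℓ0 (Nat.mul_dvd_mul_right hd ℓ)
  obtain ⟨v, hv⟩ := exists_primitiveRoot_unit (K := K) hℓ.out hℓK
  letI := algebraAlong α
  haveI : Module.Finite (modularFunctionFieldFullC K M) (modularFunctionFieldFullC K (M * ℓ)) :=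
    finiteAlong_alpha hMK hℓK hℓM rfl rfl α hα
  refine subfield_eq_top_of_adjoin (F := modularFunctionFieldFullC K M)
    (x := ⟨vj K (d * ℓ), hmem⟩) ?_ S ?_ (h2 _)
  · refine adjoin_eq_top_of_conj ((qExpand K ℓ).comp
      ((modularFunctionFieldFullC K M).val : modularFunctionFieldFullC K M →+* LaurentSeries K))
      (conj hMK hℓK hℓM v) (fun i x => ?_) ?_ _ ?_
    · show conj hMK hℓK hℓM v i (α x) = qExpand K ℓ (x : LaurentSeries K)
      exact conj_of_mem hMK hℓK hℓM hv i x.2 _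
    · rw [Fintype.card_option, Fintype.card_fin]
      exact (finrankAlong_alpha_eq hMK hℓK hℓM rfl rfl α hα).symm
    · -- the conjugates are distinct
      have hnone : (conj hMK hℓK hℓM v none ⟨vj K (d * ℓ), hmem⟩).coeff (-(d : ℤ)) = 0 := by
        rw [conj_none, qExpand_vj K ℓ _ hdℓ0]
        refine coeff_vj_of_not_dvd (mul_ne_zero hdℓ0 hℓ.out.ne_zero) fun h => ?_
        rw [dvd_neg] at h
        have h3 : d * ℓ * ℓ ∣ d := by exact_mod_cast h
        have h4 := Nat.le_of_dvd (Nat.pos_of_ne_zero hd0) h3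
        have h5 := hℓ.out.two_le
        have h6 := Nat.pos_of_ne_zero hd0
        nlinarith [Nat.mul_le_mul h5 h5]
      have hsome : ∀ b : Fin ℓ, (conj hMK hℓK hℓM v (some b) ⟨vj K (d * ℓ), hmem⟩).coeff
          (-(d : ℤ)) = (((v ^ (b : ℕ)) ^ (-(d : ℤ)) : Kˣ) : K) := by
        intro b
        rw [conj_some, w_vj_mul hMK hℓK hℓM hd, twist_coeff, coeff_vj_neg hd0, mul_one]
      intro i j hij
      have hc := congrArg (fun f : LaurentSeries K => f.coeff (-(d : ℤ))) hij
      simp only at hc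
      rcases i with _ | b <;> rcases j with _ | c
      · rfl
      · rw [hnone, hsome] at hc
        exact absurd hc.symm (Units.ne_zero _)
      · rw [hnone, hsome] at hc
        exact absurd hc (Units.ne_zero _)
      · rw [hsome, hsome] at hc
        have h3 := Units.ext hc
        rw [zpow_neg, zpow_neg, inv_inj, zpow_natCast, zpow_natCast, ← pow_mul, ← pow_mul] at h3
        rw [pow_eq_pow_iff_modEq, ← hv.eq_orderOf] at h3
        have hcop : Nat.gcd ℓ d = 1 := by
          rw [← Nat.coprime_iff_gcd_eq_one, Nat.Prime.coprime_iff_not_dvd hℓ.out]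
          exact fun h => hℓM (h.trans hd)
        have h4 : (b : ℕ) ≡ c [MOD ℓ] := Nat.ModEq.cancel_right_of_coprime hcop h3
        have h5 : (b : ℕ) = c := Nat.ModEq.eq_of_lt_of_lt h4 b.2 c.2
        rw [Fin.ext h5]
  · intro y
    exact h1 _ y.2 _

variable {N d : ℕ} [NeZero d] (hNd : N * d ∣ M)

include hNd in
/-- `w_ℓ` commutes with the degeneracy maps. -/
theorem w_dg (hNK : (N : K) ≠ 0) (hℓN : ¬ ℓ ∣ N) (x : modularFunctionFieldFullC K (N * ℓ))
    (h : qExpand K d (x : LaurentSeries K) ∈ modularFunctionFieldFullC K (M * ℓ)) :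
    (w hMK hℓK hℓM ⟨_, h⟩ : LaurentSeries K) =
      qExpand K d (w hNK hℓK hℓN x : LaurentSeries K) := by
  have hM : M ≠ 0 := by rintro rfl; simp at hMK
  have hN : N ≠ 0 := by rintro rfl; simp at hNK
  haveI : NeZero M := ⟨hM⟩
  haveI : NeZero ℓ := ⟨hℓ.out.ne_zero⟩
  haveI : NeZero (M * ℓ) := ⟨mul_ne_zero hM hℓ.out.ne_zero⟩
  have hNM : N * ℓ * d ∣ M * ℓ := by
    rw [mul_right_comm]
    exact Nat.mul_dvd_mul_right hNd ℓ
  let f : modularFunctionFieldFullC K (N * ℓ) →+* LaurentSeries K :=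
    (((modularFunctionFieldFullC K (M * ℓ)).val : _ →+* LaurentSeries K).comp
      (w hMK hℓK hℓM).toAlgHom.toRingHom).comp
      (((qExpand K d).comp ((modularFunctionFieldFullC K (N * ℓ)).val :
        modularFunctionFieldFullC K (N * ℓ) →+* LaurentSeries K)).codRestrict
        (modularFunctionFieldFullC K (M * ℓ)) (fun x => qExpand_mem_full hNM x.2))
  have hf : ∀ x, f x = w hMK hℓK hℓM ⟨qExpand K d (x : LaurentSeries K),
    qExpand_mem_full hNM x.2⟩ := fun x => rfl
  let g : modularFunctionFieldFullC K (N * ℓ) →+* LaurentSeries K :=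
    (qExpand K d).comp (((modularFunctionFieldFullC K (N * ℓ)).val : _ →+* LaurentSeries K).comp
      (w hNK hℓK hℓN).toAlgHom.toRingHom)
  have hg : ∀ x, g x = qExpand K d (w hNK hℓK hℓN x : LaurentSeries K) := fun x => rfl
  have hfg : f = g := by
    refine ringHom_ext f g (fun c => ?_) (fun e he he0 => ?_)
    · have h1 : qExpand K d (algebraMap K (LaurentSeries K) c) =
          algebraMap K (LaurentSeries K) c := (qExpandAlgHomC K d).commutes c
      rw [hf, hg, AlgEquiv.commutes]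
      have e1 : (⟨qExpand K d ((algebraMap K (modularFunctionFieldFullC K (N * ℓ)) c :
          modularFunctionFieldFullC K (N * ℓ)) : LaurentSeries K), qExpand_mem_full hNM
            (algebraMap K (modularFunctionFieldFullC K (N * ℓ)) c).2⟩ :
            modularFunctionFieldFullC K (M * ℓ)) = algebraMap K _ c := Subtype.ext h1
      rw [e1, AlgEquiv.commutes]
      exact h1.symm
    · rw [hf, hg]
      have hd : d ≠ 0 := NeZero.ne d
      rcases dvd_mul_prime_cases hℓ.out he with he1 | ⟨a, ha, rfl⟩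
      · have hed : e * d ∣ M := (Nat.mul_dvd_mul_right he1 d).trans hNd
        have hed' : vj K (e * d) ∈ modularFunctionFieldFullC K (M * ℓ) :=
          vj_mem_full K (mul_ne_zero he0 hd) (hed.mul_right ℓ)
        have e1 : (⟨qExpand K d (vj K e), qExpand_mem_full hNM (vj_mem_full K he0 he)⟩ :
            modularFunctionFieldFullC K (M * ℓ)) = ⟨vj K (e * d), hed'⟩ :=
          Subtype.ext (qExpand_vj K d e he0)
        show (w hMK hℓK hℓM ⟨qExpand K d (vj K e), _⟩ : LaurentSeries K) = _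
        rw [e1, w_vj hMK hℓK hℓM hed, w_vj hNK hℓK hℓN he1,
          qExpand_vj K d _ (mul_ne_zero he0 hℓ.out.ne_zero), mul_right_comm]
      · have ha0 : a ≠ 0 := fun h0 => he0 (by rw [h0, zero_mul])
        have had : a * d ∣ M := (Nat.mul_dvd_mul_right ha d).trans hNd
        have had0 : a * d * ℓ ≠ 0 := mul_ne_zero (mul_ne_zero ha0 hd) hℓ.out.ne_zero
        have had' : vj K (a * d * ℓ) ∈ modularFunctionFieldFullC K (M * ℓ) :=
          vj_mem_full K had0 (Nat.mul_dvd_mul_right had ℓ)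
        have e1 : (⟨qExpand K d (vj K (a * ℓ)), qExpand_mem_full hNM (vj_mem_full K he0 he)⟩ :
            modularFunctionFieldFullC K (M * ℓ)) = ⟨vj K (a * d * ℓ), had'⟩ :=
          Subtype.ext ((qExpand_vj K d _ he0).trans (by rw [mul_right_comm]))
        show (w hMK hℓK hℓM ⟨qExpand K d (vj K (a * ℓ)), _⟩ : LaurentSeries K) = _
        rw [e1, w_vj_mul hMK hℓK hℓM had, w_vj_mul hNK hℓK hℓN ha, qExpand_vj K d _ ha0]
  exact DFunLike.congr_fun hfg x

include hMK hℓK hℓM hNd in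
/-- `F_{Mℓ}` is generated by `F_M` and `F_{Nℓ}(q^d)`. -/
theorem gen_alpha' (S : Subfield (modularFunctionFieldFullC K (M * ℓ)))
    (h1 : ∀ (x : LaurentSeries K) (_ : x ∈ modularFunctionFieldFullC K M)
      (h : x ∈ modularFunctionFieldFullC K (M * ℓ)), ⟨x, h⟩ ∈ S)
    (h2 : ∀ (x : LaurentSeries K) (_ : x ∈ modularFunctionFieldFullC K (N * ℓ))
      (h : qExpand K d x ∈ modularFunctionFieldFullC K (M * ℓ)), ⟨_, h⟩ ∈ S) :
    S = ⊤ := by
  have hd : d ≠ 0 := NeZero.ne d
  have hdM : d ∣ M := (Dvd.intro_left N rfl).trans hNd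
  refine gen_alpha hMK hℓK hℓM hdM S h1 (fun h => ?_)
  have e1 : qExpand K d (vj K ℓ) = vj K (d * ℓ) := by
    rw [qExpand_vj K d ℓ hℓ.out.ne_zero, mul_comm]
  have h3 := h2 (vj K ℓ) (vj_mem_full K hℓ.out.ne_zero (Dvd.intro_left N rfl))
    (by rw [e1]; exact h)
  have e2 : (⟨qExpand K d (vj K ℓ), by rw [e1]; exact h⟩ : modularFunctionFieldFullC K (M * ℓ)) =
    ⟨vj K (d * ℓ), h⟩ := Subtype.ext e1
  rw [← e2]
  exact h3

include hMK hℓK hℓM hNd in
/-- `F_{Mℓ}` is generated by `F_M(q^ℓ)` and `F_{Nℓ}(q^d)`. -/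
theorem gen_beta' (hNK : (N : K) ≠ 0) (hℓN : ¬ ℓ ∣ N)
    (S : Subfield (modularFunctionFieldFullC K (M * ℓ)))
    (h1 : haveI : NeZero ℓ := ⟨hℓ.out.ne_zero⟩
      ∀ (x : LaurentSeries K) (_ : x ∈ modularFunctionFieldFullC K M)
      (h : qExpand K ℓ x ∈ modularFunctionFieldFullC K (M * ℓ)), ⟨_, h⟩ ∈ S)
    (h2 : ∀ (x : LaurentSeries K) (_ : x ∈ modularFunctionFieldFullC K (N * ℓ))
      (h : qExpand K d x ∈ modularFunctionFieldFullC K (M * ℓ)), ⟨_, h⟩ ∈ S) :
    S = ⊤ := by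
  have hM : M ≠ 0 := by rintro rfl; simp at hMK
  haveI : NeZero M := ⟨hM⟩
  haveI : NeZero ℓ := ⟨hℓ.out.ne_zero⟩
  haveI : NeZero (M * ℓ) := ⟨mul_ne_zero hM hℓ.out.ne_zero⟩
  have hNM : N * ℓ * d ∣ M * ℓ := by
    rw [mul_right_comm]
    exact Nat.mul_dvd_mul_right hNd ℓ
  have key : S.comap (w hMK hℓK hℓM).toAlgHom.toRingHom = ⊤ := by
    refine gen_alpha' hMK hℓK hℓM hNd _ ?_ ?_
    · intro x hx h
      show w hMK hℓK hℓM ⟨x, h⟩ ∈ S
      have e1 := w_apply_of_mem hMK hℓK hℓM hx h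
      have e2 : w hMK hℓK hℓM ⟨x, h⟩ = ⟨qExpand K ℓ x, qExpand_mem_full dvd_rfl hx⟩ :=
        Subtype.ext e1
      rw [e2]
      exact h1 x hx _
    · intro x hx h
      show w hMK hℓK hℓM ⟨_, h⟩ ∈ S
      have e1 := w_dg hMK hℓK hℓM hNd hNK hℓN ⟨x, hx⟩ h
      have e2 : w hMK hℓK hℓM ⟨_, h⟩ = ⟨qExpand K d (w hNK hℓK hℓN ⟨x, hx⟩ : LaurentSeries K),
        qExpand_mem_full hNM (w hNK hℓK hℓN ⟨x, hx⟩).2⟩ := Subtype.ext e1
      rw [e2]
      exact h2 _ (w hNK hℓK hℓN ⟨x, hx⟩).2 _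
  rw [eq_top_iff]
  intro y _
  have h3 : w hMK hℓK hℓM y ∈ S.comap (w hMK hℓK hℓM).toAlgHom.toRingHom := by
    rw [key]; trivial
  have h4 : w hMK hℓK hℓM (w hMK hℓK hℓM y) ∈ S := h3
  rwa [w_w] at h4

include hMK hℓK hℓM in
theorem finrankAlong_beta_eq {E E' : IntermediateField K (LaurentSeries K)}
    (hE : E = modularFunctionFieldFullC K M) (hE' : E' = modularFunctionFieldFullC K (M * ℓ))
    [IsFF K E] [IsFF K E'] (β : E →ₐ[K] E')
    (hβ : ∀ x, (β x : LaurentSeries K) =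
      (haveI : NeZero ℓ := ⟨hℓ.out.ne_zero⟩; qExpand K ℓ (x : LaurentSeries K))) :
    finrankAlong K β = ℓ + 1 := by
  have hM : M ≠ 0 := by rintro rfl; simp at hMK
  haveI : NeZero M := ⟨hM⟩
  haveI : NeZero ℓ := ⟨hℓ.out.ne_zero⟩
  haveI : NeZero (M * ℓ) := ⟨mul_ne_zero hM hℓ.out.ne_zero⟩
  subst hE hE'
  have hle : modularFunctionFieldFullC K M ≤ modularFunctionFieldFullC K (M * ℓ) :=
    full_degeneracyC_le K (Dvd.intro ℓ rfl)
  let α : modularFunctionFieldFullC K M →ₐ[K] modularFunctionFieldFullC K (M * ℓ) :=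
    IntermediateField.inclusion hle
  have hα : ∀ x, (α x : LaurentSeries K) = x := fun x => rfl
  have h1 : β = (w hMK hℓK hℓM).toAlgHom.comp α :=
    AlgHom.ext fun x => beta_eq hMK hℓK hℓM α β hα hβ x
  rw [h1, finrankAlong_comp, finrankAlong_equiv, mul_one]
  exact finrankAlong_alpha_eq hMK hℓK hℓM rfl rfl α hα

end GenAlpha

end Fermat.Agent.Degen
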