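import Fermat.Agent.Degen.Abs

/-!
# Push-forward and pull-back on classes of divisors of degree zero
-/

set_option autoImplicit false
set_option linter.unusedSectionVars false
set_option linter.style.haveILetI false

noncomputable section

open AlgebraicCurve Module

namespace Fermat.Agent.Degen

open Fermat.Agent.FunField Fermat.Agent.FunField.PlaceLemmas Fermat.Agent.HeckeRed

variable {K F F' F'' : Type*} [Field K] [IsAlgClosed K] [Field F] [Field F'] [Field F'']
  [Algebra K F] [Algebra K F'] [Algebra K F''] [IsFF K F] [IsFF K F'] [IsFF K F'']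

theorem push_mem_degZero (φ : F →ₐ[K] F') {D : Divisor K F'}
    (hD : D ∈ Divisor.degZero (K := K) (F := F')) :
    push φ D ∈ Divisor.degZero (K := K) (F := F) := by
  rwa [Divisor.mem_degZero, degree_push]

theorem pull_mem_degZero (φ : F →ₐ[K] F') {D : Divisor K F}
    (hD : D ∈ Divisor.degZero (K := K) (F := F)) :
    pull φ D ∈ Divisor.degZero (K := K) (F := F') := by
  rw [Divisor.mem_degZero, degree_pull, Divisor.mem_degZero.mp hD, mul_zero]

theorem push_mem_principal (φ : F →ₐ[K] F') {D : Divisor K F'}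
    (hD : D ∈ Divisor.principal (K := K) (F := F')) :
    push φ D ∈ Divisor.principal (K := K) (F := F) :=
  Divisor.isPrincipal_pushforwardAlong φ _ (finiteAlong_of_isFF φ) (normFormulaAlong φ _) hD

theorem pull_mem_principal (φ : F →ₐ[K] F') {D : Divisor K F}
    (hD : D ∈ Divisor.principal (K := K) (F := F)) :
    pull φ D ∈ Divisor.principal (K := K) (F := F') :=
  Divisor.isPrincipal_pullbackAlong φ _ hD

/-- push-forward on divisors of degree zero -/
def pushZ (φ : F →ₐ[K] F') :
    Divisor.degZero (K := K) (F := F') →+ Divisor.degZero (K := K) (F := F) :=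
  ((push φ).domRestrict _).codRestrict _ fun D => push_mem_degZero φ D.2

@[simp]
theorem coe_pushZ (φ : F →ₐ[K] F') (D : Divisor.degZero (K := K) (F := F')) :
    (pushZ φ D : Divisor K F) = push φ D := rfl

/-- pull-back on divisors of degree zero -/
def pullZ (φ : F →ₐ[K] F') :
    Divisor.degZero (K := K) (F := F) →+ Divisor.degZero (K := K) (F := F') :=
  ((pull φ).domRestrict _).codRestrict _ fun D => pull_mem_degZero φ D.2

@[simp]
theorem coe_pullZ (φ : F →ₐ[K] F') (D : Divisor.degZero (K := K) (F := F)) :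
    (pullZ φ D : Divisor K F') = pull φ D := rfl

/-- **push-forward** `φ_* : Pic⁰(F') → Pic⁰(F)` -/
def pushPic (φ : F →ₐ[K] F') : Pic0 K F' →+ Pic0 K F :=
  QuotientAddGroup.map _ _ (pushZ φ) (by
    rintro ⟨D, hD0⟩ hD
    simp only [AddSubgroup.mem_addSubgroupOf] at hD ⊢
    exact push_mem_principal φ hD)

/-- **pull-back** `φ^* : Pic⁰(F) → Pic⁰(F')` -/
def pullPic (φ : F →ₐ[K] F') : Pic0 K F →+ Pic0 K F' :=
  QuotientAddGroup.map _ _ (pullZ φ) (by
    rintro ⟨D, hD0⟩ hD
    simp only [AddSubgroup.mem_addSubgroupOf] at hD ⊢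
    exact pull_mem_principal φ hD)

@[simp]
theorem pushPic_mk (φ : F →ₐ[K] F') (D : Divisor.degZero (K := K) (F := F')) :
    pushPic φ (Pic0.mk D) = Pic0.mk (pushZ φ D) := rfl

@[simp]
theorem pullPic_mk (φ : F →ₐ[K] F') (D : Divisor.degZero (K := K) (F := F)) :
    pullPic φ (Pic0.mk D) = Pic0.mk (pullZ φ D) := rfl

theorem correspondence_eq (φ ψ : F →ₐ[K] F') (hφ : φ.toRingHom.IsIntegral)
    (hψ : ψ.toRingHom.IsIntegral) (hFI : FundamentalIdentityAlong K φ hφ)
    (hfin : FiniteAlong K ψ) (hN : NormFormulaAlong K ψ hfin) (x : Pic0 K F) :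
    Pic0.correspondence φ ψ hφ hψ hFI hfin hN x = pushPic ψ (pullPic φ x) := by
  obtain ⟨D, rfl⟩ := Pic0.mk_surjective x
  rfl

theorem pushPic_pushPic (φ : F →ₐ[K] F') (ψ : F' →ₐ[K] F'') (x : Pic0 K F'') :
    pushPic φ (pushPic ψ x) = pushPic (ψ.comp φ) x := by
  obtain ⟨D, rfl⟩ := Pic0.mk_surjective x
  exact congrArg Pic0.mk (Subtype.ext (push_push φ ψ D))

theorem pullPic_pullPic (φ : F →ₐ[K] F') (ψ : F' →ₐ[K] F'') (x : Pic0 K F) :
    pullPic ψ (pullPic φ x) = pullPic (ψ.comp φ) x := by
  obtain ⟨D, rfl⟩ := Pic0.mk_surjective x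
  exact congrArg Pic0.mk (Subtype.ext (pull_pull φ ψ D))

theorem pushPic_pullPic (φ : F →ₐ[K] F') (x : Pic0 K F) :
    pushPic φ (pullPic φ x) = finrankAlong K φ • x := by
  obtain ⟨D, rfl⟩ := Pic0.mk_surjective x
  rw [pullPic_mk, pushPic_mk]
  have h1 : pushZ φ (pullZ φ D) = finrankAlong K φ • D := by
    refine Subtype.ext ?_
    rw [coe_pushZ, coe_pullZ, push_pull]
    rfl
  rw [h1]
  rfl

section Id

theorem push_id (D : Divisor K F) : push (AlgHom.id K F) D = D := by
  have h : push (AlgHom.id K F) = AddMonoidHom.id _ := by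
    refine Finsupp.addHom_ext fun w n => ?_
    rw [push_single]
    have : res (AlgHom.id K F) w = w := place_ext fun f => Iff.rfl
    rw [this]
    rfl
  exact DFunLike.congr_fun h D

theorem ramificationIndexAlong_id (w : Place K F) :
    Place.ramificationIndexAlong (AlgHom.id K F) w = 1 := by
  obtain ⟨f, hf0, hf⟩ := exists_ord_one w
  have h1 := ord_res (AlgHom.id K F) w f
  have h2 : res (AlgHom.id K F) w = w := place_ext fun f => Iff.rfl
  rw [h2, AlgHom.id_apply, hf, mul_one] at h1
  exact_mod_cast h1.symm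

theorem pull_id (D : Divisor K F) : pull (AlgHom.id K F) D = D := by
  ext w
  rw [pull_apply, ramificationIndexAlong_id]
  have h2 : res (AlgHom.id K F) w = w := place_ext fun f => Iff.rfl
  rw [h2, Nat.cast_one, one_mul]

theorem pushPic_id (x : Pic0 K F) : pushPic (AlgHom.id K F) x = x := by
  obtain ⟨D, rfl⟩ := Pic0.mk_surjective x
  exact congrArg Pic0.mk (Subtype.ext (push_id _))

theorem pullPic_id (x : Pic0 K F) : pullPic (AlgHom.id K F) x = x := by
  obtain ⟨D, rfl⟩ := Pic0.mk_surjective x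
  exact congrArg Pic0.mk (Subtype.ext (pull_id _))

theorem pullPic_congr {φ ψ : F →ₐ[K] F'} (h : φ = ψ) (x : Pic0 K F) :
    pullPic φ x = pullPic ψ x := by rw [h]

theorem pushPic_congr {φ ψ : F →ₐ[K] F'} (h : φ = ψ) (x : Pic0 K F') :
    pushPic φ x = pushPic ψ x := by rw [h]

theorem finrankAlong_equiv (e : F ≃ₐ[K] F') : finrankAlong K e.toAlgHom = 1 := by
  letI := algebraAlong e.toAlgHom
  show Module.finrank F F' = 1
  have h : Module.finrank F F = Module.finrank F F' :=
    LinearEquiv.finrank_eq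
      { e.toRingEquiv.toAddEquiv with
        map_smul' := fun a b => by
          show e (a * b) = e a * e b
          exact map_mul e a b }
  rw [← h, Module.finrank_self]

/-- push and pull along an isomorphism are inverse to each other. -/
theorem pushPic_pullPic_equiv (e : F ≃ₐ[K] F') (x : Pic0 K F) :
    pushPic e.toAlgHom (pullPic e.toAlgHom x) = x := by
  rw [pushPic_pullPic, finrankAlong_equiv, one_smul]

theorem pullPic_pushPic_equiv (e : F ≃ₐ[K] F') (x : Pic0 K F') :
    pullPic e.toAlgHom (pushPic e.toAlgHom x) = x := by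
  have h1 : pushPic e.symm.toAlgHom (pushPic e.toAlgHom x) = x := by
    rw [pushPic_pushPic]
    have : e.toAlgHom.comp e.symm.toAlgHom = AlgHom.id K F' := AlgHom.ext fun y => e.apply_symm_apply y
    rw [this, pushPic_id]
  have h2 : pushPic e.symm.toAlgHom (pushPic e.toAlgHom (pullPic e.toAlgHom (pushPic e.toAlgHom x)))
      = pullPic e.toAlgHom (pushPic e.toAlgHom x) := by
    rw [pushPic_pushPic]
    have : e.toAlgHom.comp e.symm.toAlgHom = AlgHom.id K F' := AlgHom.ext fun y => e.apply_symm_apply y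
    rw [this, pushPic_id]
  rw [pushPic_pullPic_equiv] at h2
  rw [← h2, h1]

/-- pull-back along `e` is push-forward along `e⁻¹`. -/
theorem pullPic_equiv_eq (e : F ≃ₐ[K] F') (x : Pic0 K F) :
    pullPic e.toAlgHom x = pushPic e.symm.toAlgHom x := by
  have h1 : pushPic e.toAlgHom (pushPic e.symm.toAlgHom x) = x := by
    rw [pushPic_pushPic]
    have : e.symm.toAlgHom.comp e.toAlgHom = AlgHom.id K F := AlgHom.ext fun y => e.symm_apply_apply y
    rw [this, pushPic_id]
  conv_lhs => rw [← h1]
  rw [pullPic_pushPic_equiv]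

end Id

section Square

variable {E E' M : Type*} [Field E] [Field E'] [Field M]
  [Algebra K E] [Algebra K E'] [Algebra K M] [IsFF K E] [IsFF K E'] [IsFF K M]

/-- **Base change** for classes. -/
theorem pullPic_pushPic (α : F →ₐ[K] E') (β : F →ₐ[K] E) (α' : E →ₐ[K] M)
    (β' : E' →ₐ[K] M) (hsq : α'.comp β = β'.comp α)
    (hgen : ∀ S : Subfield M, (∀ x, α' x ∈ S) → (∀ x, β' x ∈ S) → S = ⊤)
    (hdeg : finrankAlong K α' = finrankAlong K α) (x : Pic0 K E') :
    pullPic β (pushPic α x) = pushPic α' (pullPic β' x) := by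
  obtain ⟨D, rfl⟩ := Pic0.mk_surjective x
  refine congrArg Pic0.mk (Subtype.ext ?_)
  exact pull_push_of_norm α β α' β' hsq
    (fun f _ => normAlong_baseChange α β α' β' hsq hgen hdeg f) D

/-- degrees in a commutative square -/
theorem finrankAlong_comp (φ : F →ₐ[K] F') (ψ : F' →ₐ[K] F'') :
    finrankAlong K (ψ.comp φ) = finrankAlong K φ * finrankAlong K ψ := by
  letI a1 : Algebra F F' := algebraAlong φ
  letI a2 : Algebra F' F'' := algebraAlong ψ
  letI a3 : Algebra F F'' := algebraAlong (ψ.comp φ)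
  haveI t : IsScalarTower F F' F'' := IsScalarTower.of_algebraMap_eq fun x => rfl
  exact (Module.finrank_mul_finrank F F' F'').symm

theorem finrankAlong_pos (φ : F →ₐ[K] F') : 0 < finrankAlong K φ := by
  letI a1 : Algebra F F' := algebraAlong φ
  haveI f1 : Module.Finite F F' := finiteAlong_of_isFF φ
  exact Module.finrank_pos

/-- Base change, other degree condition. -/
theorem pullPic_pushPic' (α : F →ₐ[K] E') (β : F →ₐ[K] E) (α' : E →ₐ[K] M)
    (β' : E' →ₐ[K] M) (hsq : α'.comp β = β'.comp α)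
    (hgen : ∀ S : Subfield M, (∀ x, α' x ∈ S) → (∀ x, β' x ∈ S) → S = ⊤)
    (hdeg : finrankAlong K β' = finrankAlong K β) (x : Pic0 K E') :
    pullPic β (pushPic α x) = pushPic α' (pullPic β' x) := by
  refine pullPic_pushPic α β α' β' hsq hgen ?_ x
  have h1 := finrankAlong_comp β α'
  have h2 := finrankAlong_comp α β'
  rw [hsq, h2, hdeg, mul_comm (finrankAlong K β)] at h1
  exact (Nat.eq_of_mul_eq_mul_right (finrankAlong_pos β) (by rw [h1, mul_comm])).symm

end Square

section Semilinear

open SemilinearAut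
open scoped Pointwise

theorem smul_res (φ : F →ₐ[K] F') {g : SemilinearAut K F} {g' : SemilinearAut K F'}
    (h : IntertwinesAlong φ.toRingHom g g') (w : Place K F') : res φ (g' • w) = g • res φ w := by
  apply place_ext
  intro f
  show φ f ∈ (g' • w.toValuationSubring : ValuationSubring F') ↔
    f ∈ (g • (res φ w).toValuationSubring : ValuationSubring F)
  rw [ValuationSubring.mem_pointwise_smul_iff_inv_smul_mem,
    ValuationSubring.mem_pointwise_smul_iff_inv_smul_mem, mem_res_iff]
  have h1 : g'⁻¹ • (φ f) = φ (g⁻¹ • f) := h.inv f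
  rw [h1]

theorem push_smul (φ : F →ₐ[K] F') {g : SemilinearAut K F} {g' : SemilinearAut K F'}
    (h : IntertwinesAlong φ.toRingHom g g') (D : Divisor K F') :
    push φ (g' • D) = g • push φ D := by
  induction D using Finsupp.induction with
  | zero => simp
  | single_add v n D _ _ ih =>
    rw [smul_add, map_add, ih, map_add, smul_add, smul_single, push_single, push_single,
      smul_single, smul_res φ h]

theorem pull_smul (φ : F →ₐ[K] F') {g : SemilinearAut K F} {g' : SemilinearAut K F'}
    (h : IntertwinesAlong φ.toRingHom g g') (D : Divisor K F) :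
    pull φ (g • D) = g' • pull φ D := by
  ext w
  rw [divisor_smul_apply, pull_apply, pull_apply, smul_res φ h.inv, divisor_smul_apply]
  congr 2
  obtain ⟨f, hf0, hf⟩ := exists_ord_one (res φ w)
  have h1 := ord_res φ w f
  rw [hf, mul_one] at h1
  have h2 := ord_res φ (g'⁻¹ • w) (g⁻¹ • f)
  have h3 : g'⁻¹ • (φ f) = φ (g⁻¹ • f) := h.inv f
  rw [smul_res φ h.inv, ord_smul, hf, mul_one, ← h3, ord_smul, h1] at h2
  exact_mod_cast h2

theorem pushPic_smul (φ : F →ₐ[K] F') {g : SemilinearAut K F} {g' : SemilinearAut K F'}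
    (h : IntertwinesAlong φ.toRingHom g g') (x : Pic0 K F') :
    pushPic φ (g' • x) = g • pushPic φ x := by
  obtain ⟨D, rfl⟩ := Pic0.mk_surjective x
  exact congrArg Pic0.mk (Subtype.ext (push_smul φ h D))

theorem pullPic_smul (φ : F →ₐ[K] F') {g : SemilinearAut K F} {g' : SemilinearAut K F'}
    (h : IntertwinesAlong φ.toRingHom g g') (x : Pic0 K F) :
    pullPic φ (g • x) = g' • pullPic φ x := by
  obtain ⟨D, rfl⟩ := Pic0.mk_surjective x
  exact congrArg Pic0.mk (Subtype.ext (pull_smul φ h D))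

end Semilinear

end Fermat.Agent.Degen
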