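import Fermat.Agent.Degen.Modular

/-!
# Degeneracy maps commute with Hecke operators on `Pic⁰`, conclusion
-/

set_option autoImplicit false
set_option linter.unusedSectionVars false
set_option linter.style.haveILetI false

noncomputable section

open ModularCurve AlgebraicCurve Fermat.Agent.ModPoly Polynomial IntermediateField

namespace Fermat.Agent.Degen

open Fermat.Agent.ModDeg Fermat.Agent.HeckeRed Fermat.Agent.AtkinLehner Fermat.Agent.FunField

section Dg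

variable {K : Type*} [Field K]

/-- The degeneracy map `f ↦ f(q^d)`. -/
def dg {E E' : IntermediateField K (LaurentSeries K)} (d : ℕ) [NeZero d]
    (h : ∀ x ∈ E, qExpand K d x ∈ E') : E →ₐ[K] E' where
  toFun x := ⟨qExpand K d (x : LaurentSeries K), h x x.2⟩
  map_one' := Subtype.ext (map_one (qExpand K d))
  map_mul' _ _ := Subtype.ext (map_mul (qExpand K d) _ _)
  map_zero' := Subtype.ext (map_zero (qExpand K d))
  map_add' _ _ := Subtype.ext (map_add (qExpand K d) _ _)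
  commutes' a := Subtype.ext ((qExpandAlgHomC K d).commutes a)

@[simp]
theorem coe_dg {E E' : IntermediateField K (LaurentSeries K)} (d : ℕ) [NeZero d]
    (h : ∀ x ∈ E, qExpand K d x ∈ E') (x : E) :
    (dg d h x : LaurentSeries K) = qExpand K d (x : LaurentSeries K) := rfl

theorem qExpand_comm (a b : ℕ) [NeZero a] [NeZero b] (x : LaurentSeries K) :
    qExpand K a (qExpand K b x) = qExpand K b (qExpand K a x) := by
  haveI : NeZero (a * b) := ⟨mul_ne_zero (NeZero.ne a) (NeZero.ne b)⟩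
  haveI : NeZero (b * a) := ⟨mul_ne_zero (NeZero.ne b) (NeZero.ne a)⟩
  rw [qExpand_qExpand, qExpand_qExpand, qExpand_congr (mul_comm a b)]

end Dg

variable {K : Type*} [Field K] [IsAlgClosed K] {N M ℓ d : ℕ} [hℓ : Fact ℓ.Prime] [NeZero d]
  (hMK : (M : K) ≠ 0) (hℓK : (ℓ : K) ≠ 0) (hℓM : ¬ ℓ ∣ M) (hNd : N * d ∣ M)
  {E E' E₁ E₁' : IntermediateField K (LaurentSeries K)}
  [IsFF K E] [IsFF K E'] [IsFF K E₁] [IsFF K E₁']
  (hE : E = modularFunctionFieldFullC K N) (hE' : E' = modularFunctionFieldFullC K M)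
  (hE₁ : E₁ = modularFunctionFieldFullC K (N * ℓ))
  (hE₁' : E₁' = modularFunctionFieldFullC K (M * ℓ))
  (δ : E →ₐ[K] E') (hδ : ∀ x, (δ x : LaurentSeries K) = qExpand K d (x : LaurentSeries K))
  (α β : E →ₐ[K] E₁) (hα : ∀ x, (α x : LaurentSeries K) = x)
  (hβ : ∀ x, (β x : LaurentSeries K) =
    (haveI : NeZero ℓ := ⟨hℓ.out.ne_zero⟩; qExpand K ℓ (x : LaurentSeries K)))
  (α' β' : E' →ₐ[K] E₁') (hα' : ∀ x, (α' x : LaurentSeries K) = x)
  (hβ' : ∀ x, (β' x : LaurentSeries K) =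
    (haveI : NeZero ℓ := ⟨hℓ.out.ne_zero⟩; qExpand K ℓ (x : LaurentSeries K)))

include hMK hℓK hℓM hNd hE hE' hE₁ hE₁' hδ hα hα' in
/-- Base change along `α_ℓ`. -/
theorem pullPic_alpha_pushPic (δ' : E₁ →ₐ[K] E₁')
    (hδ' : ∀ x, (δ' x : LaurentSeries K) = qExpand K d (x : LaurentSeries K)) (x : Pic0 K E') :
    pullPic α (pushPic δ x) = pushPic δ' (pullPic α' x) := by
  have hM : M ≠ 0 := by rintro rfl; simp at hMK
  have hN : N ≠ 0 := by
    rintro rfl
    rw [zero_mul] at hNd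
    exact hM (Nat.eq_zero_of_zero_dvd hNd)
  have hNM : N ∣ M := (Dvd.intro d rfl).trans hNd
  have hNK : (N : K) ≠ 0 := by
    obtain ⟨c, rfl⟩ := hNM
    intro h
    exact hMK (by rw [Nat.cast_mul, h, zero_mul])
  have hℓN : ¬ ℓ ∣ N := fun h => hℓM (h.trans hNM)
  haveI : NeZero M := ⟨hM⟩
  haveI : NeZero N := ⟨hN⟩
  haveI : NeZero ℓ := ⟨hℓ.out.ne_zero⟩
  subst hE hE' hE₁ hE₁'
  refine pullPic_pushPic' δ α δ' α' ?_ ?_ ?_ x
  · refine AlgHom.ext fun y => Subtype.ext ?_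
    show ((δ' (α y) : modularFunctionFieldFullC K (M * ℓ)) : LaurentSeries K) =
      (α' (δ y) : modularFunctionFieldFullC K (M * ℓ))
    rw [hδ', hα', hα, hδ]
  · intro S h1 h2
    refine gen_alpha' hMK hℓK hℓM hNd S ?_ ?_
    · intro y hy h
      have e : (⟨y, h⟩ : modularFunctionFieldFullC K (M * ℓ)) = α' ⟨y, hy⟩ :=
        Subtype.ext (hα' ⟨y, hy⟩).symm
      rw [e]
      exact h2 _
    · intro y hy h
      have e : (⟨_, h⟩ : modularFunctionFieldFullC K (M * ℓ)) = δ' ⟨y, hy⟩ :=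
        Subtype.ext (hδ' ⟨y, hy⟩).symm
      rw [e]
      exact h1 _
  · rw [finrankAlong_alpha_eq hMK hℓK hℓM rfl rfl α' hα',
      finrankAlong_alpha_eq hNK hℓK hℓN rfl rfl α hα]

include hMK hℓK hℓM hNd hE hE' hE₁ hE₁' hδ hβ hβ' in
/-- Base change along `β_ℓ`. -/
theorem pullPic_beta_pushPic (δ' : E₁ →ₐ[K] E₁')
    (hδ' : ∀ x, (δ' x : LaurentSeries K) = qExpand K d (x : LaurentSeries K)) (x : Pic0 K E') :
    pullPic β (pushPic δ x) = pushPic δ' (pullPic β' x) := by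
  have hM : M ≠ 0 := by rintro rfl; simp at hMK
  have hN : N ≠ 0 := by
    rintro rfl
    rw [zero_mul] at hNd
    exact hM (Nat.eq_zero_of_zero_dvd hNd)
  have hNM : N ∣ M := (Dvd.intro d rfl).trans hNd
  have hNK : (N : K) ≠ 0 := by
    obtain ⟨c, rfl⟩ := hNM
    intro h
    exact hMK (by rw [Nat.cast_mul, h, zero_mul])
  have hℓN : ¬ ℓ ∣ N := fun h => hℓM (h.trans hNM)
  haveI : NeZero M := ⟨hM⟩
  haveI : NeZero N := ⟨hN⟩
  haveI : NeZero ℓ := ⟨hℓ.out.ne_zero⟩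
  subst hE hE' hE₁ hE₁'
  refine pullPic_pushPic' δ β δ' β' ?_ ?_ ?_ x
  · refine AlgHom.ext fun y => Subtype.ext ?_
    show ((δ' (β y) : modularFunctionFieldFullC K (M * ℓ)) : LaurentSeries K) =
      (β' (δ y) : modularFunctionFieldFullC K (M * ℓ))
    rw [hδ', hβ', hβ, hδ]
    exact qExpand_comm _ _ _
  · intro S h1 h2
    refine gen_beta' hMK hℓK hℓM hNd hNK hℓN S ?_ ?_
    · intro y hy h
      have e : (⟨_, h⟩ : modularFunctionFieldFullC K (M * ℓ)) = β' ⟨y, hy⟩ :=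
        Subtype.ext (hβ' ⟨y, hy⟩).symm
      rw [e]
      exact h2 _
    · intro y hy h
      have e : (⟨_, h⟩ : modularFunctionFieldFullC K (M * ℓ)) = δ' ⟨y, hy⟩ :=
        Subtype.ext (hδ' ⟨y, hy⟩).symm
      rw [e]
      exact h1 _
  · rw [finrankAlong_beta_eq hMK hℓK hℓM rfl rfl β' hβ',
      finrankAlong_beta_eq hNK hℓK hℓN rfl rfl β hβ]

include hMK hℓK hℓM hNd hE hE' hE₁ hE₁' hδ hα hα' in
/-- Base change along `δ` of `α_ℓ`. -/
theorem pullPic_dg_pushPic_alpha (δ' : E₁ →ₐ[K] E₁')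
    (hδ' : ∀ x, (δ' x : LaurentSeries K) = qExpand K d (x : LaurentSeries K)) (x : Pic0 K E₁) :
    pullPic δ (pushPic α x) = pushPic α' (pullPic δ' x) := by
  have hM : M ≠ 0 := by rintro rfl; simp at hMK
  have hN : N ≠ 0 := by
    rintro rfl
    rw [zero_mul] at hNd
    exact hM (Nat.eq_zero_of_zero_dvd hNd)
  have hNM : N ∣ M := (Dvd.intro d rfl).trans hNd
  have hNK : (N : K) ≠ 0 := by
    obtain ⟨c, rfl⟩ := hNM
    intro h
    exact hMK (by rw [Nat.cast_mul, h, zero_mul])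
  have hℓN : ¬ ℓ ∣ N := fun h => hℓM (h.trans hNM)
  haveI : NeZero M := ⟨hM⟩
  haveI : NeZero N := ⟨hN⟩
  haveI : NeZero ℓ := ⟨hℓ.out.ne_zero⟩
  subst hE hE' hE₁ hE₁'
  refine pullPic_pushPic α δ α' δ' ?_ ?_ ?_ x
  · refine AlgHom.ext fun y => Subtype.ext ?_
    show ((α' (δ y) : modularFunctionFieldFullC K (M * ℓ)) : LaurentSeries K) =
      (δ' (α y) : modularFunctionFieldFullC K (M * ℓ))
    rw [hδ', hα', hα, hδ]
  · intro S h1 h2
    refine gen_alpha' hMK hℓK hℓM hNd S ?_ ?_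
    · intro y hy h
      have e : (⟨y, h⟩ : modularFunctionFieldFullC K (M * ℓ)) = α' ⟨y, hy⟩ :=
        Subtype.ext (hα' ⟨y, hy⟩).symm
      rw [e]
      exact h1 _
    · intro y hy h
      have e : (⟨_, h⟩ : modularFunctionFieldFullC K (M * ℓ)) = δ' ⟨y, hy⟩ :=
        Subtype.ext (hδ' ⟨y, hy⟩).symm
      rw [e]
      exact h2 _
  · rw [finrankAlong_alpha_eq hMK hℓK hℓM rfl rfl α' hα',
      finrankAlong_alpha_eq hNK hℓK hℓN rfl rfl α hα]

include hMK hℓK hℓM hNd hE hE' hE₁ hE₁' hδ hα hα' hβ hβ' in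
/-- **`δ_* T_ℓ = T_ℓ δ_*`.** -/
theorem pushPic_hecke (x : Pic0 K E') :
    pushPic δ (pushPic α' (pullPic β' x)) = pushPic α (pullPic β (pushPic δ x)) := by
  have hM : M ≠ 0 := by rintro rfl; simp at hMK
  haveI : NeZero (M * ℓ) := ⟨mul_ne_zero hM hℓ.out.ne_zero⟩
  have hNM : N * ℓ * d ∣ M * ℓ := by
    rw [mul_right_comm]
    exact Nat.mul_dvd_mul_right hNd ℓ
  let δ' : E₁ →ₐ[K] E₁' := dg d (fun x hx => by
    rw [hE₁'] ; rw [hE₁] at hx; exact qExpand_mem_full hNM hx)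
  have hδ' : ∀ x, (δ' x : LaurentSeries K) = qExpand K d (x : LaurentSeries K) := fun x => rfl
  rw [pullPic_beta_pushPic hMK hℓK hℓM hNd hE hE' hE₁ hE₁' δ hδ β hβ β' hβ' δ' hδ',
    pushPic_pushPic, pushPic_pushPic]
  refine pushPic_congr (AlgHom.ext fun y => Subtype.ext ?_) _
  show ((α' (δ y) : E₁') : LaurentSeries K) = (δ' (α y) : E₁')
  rw [hδ', hα', hα, hδ]

include hMK hℓK hℓM hNd hE hE' hE₁ hE₁' hδ hα hα' hβ hβ' in
/-- **`δ^* T_ℓ = T_ℓ δ^*`.** -/
theorem pullPic_hecke (x : Pic0 K E) :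
    pullPic δ (pushPic α (pullPic β x)) = pushPic α' (pullPic β' (pullPic δ x)) := by
  have hM : M ≠ 0 := by rintro rfl; simp at hMK
  haveI : NeZero (M * ℓ) := ⟨mul_ne_zero hM hℓ.out.ne_zero⟩
  have hNM : N * ℓ * d ∣ M * ℓ := by
    rw [mul_right_comm]
    exact Nat.mul_dvd_mul_right hNd ℓ
  haveI : NeZero ℓ := ⟨hℓ.out.ne_zero⟩
  let δ' : E₁ →ₐ[K] E₁' := dg d (fun x hx => by
    rw [hE₁'] ; rw [hE₁] at hx; exact qExpand_mem_full hNM hx)
  have hδ' : ∀ x, (δ' x : LaurentSeries K) = qExpand K d (x : LaurentSeries K) := fun x => rfl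
  rw [pullPic_dg_pushPic_alpha hMK hℓK hℓM hNd hE hE' hE₁ hE₁' δ hδ α hα α' hα' δ' hδ',
    pullPic_pullPic, pullPic_pullPic]
  congr 1
  refine pullPic_congr (AlgHom.ext fun y => Subtype.ext ?_) _
  show ((δ' (β y) : E₁') : LaurentSeries K) = (β' (δ y) : E₁')
  rw [hδ', hβ', hβ, hδ]
  exact qExpand_comm _ _ _

/-! ### the Hecke operators of the prelude -/

section Prelude

variable {L : Type*} [Field L] [Algebra ℚ L] [IsAlgClosed L]

theorem heckeOperatorAlong_apply (N ℓ : ℕ) [NeZero N] [NeZero ℓ]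
    (x : Pic0 L (laurentBaseChange L (modularFunctionFieldFull N))) :
    heckeOperatorAlong L N ℓ x =
      pushPic (heckeAlphaBar L N ℓ) (pullPic (heckeBetaBar L N ℓ) x) := by
  obtain ⟨D, rfl⟩ := Pic0.mk_surjective x
  rw [heckeOperatorAlong_mk]
  rfl

theorem natCast_ne_zero' {n : ℕ} (hn : n ≠ 0) : (n : L) ≠ 0 := by
  haveI : CharZero L := charZero_of_injective_algebraMap (algebraMap ℚ L).injective
  exact_mod_cast hn

theorem pushPic_heckeOperatorAlong {N M ℓ d : ℕ} [NeZero N] [NeZero M] [NeZero ℓ] [NeZero d]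
    (hℓ : ℓ.Prime) (hℓM : ¬ ℓ ∣ M) (hNd : N * d ∣ M)
    (δ : laurentBaseChange L (modularFunctionFieldFull N) →ₐ[L]
      laurentBaseChange L (modularFunctionFieldFull M))
    (hδ : ∀ x, (δ x : LaurentSeries L) = qExpand L d (x : LaurentSeries L))
    (x : Pic0 L (laurentBaseChange L (modularFunctionFieldFull M))) :
    pushPic δ (heckeOperatorAlong L M ℓ x) = heckeOperatorAlong L N ℓ (pushPic δ x) := by
  haveI : Fact ℓ.Prime := ⟨hℓ⟩
  rw [heckeOperatorAlong_apply, heckeOperatorAlong_apply]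
  exact pushPic_hecke (natCast_ne_zero' (NeZero.ne M)) (natCast_ne_zero' hℓ.ne_zero) hℓM hNd
    (laurentBaseChange_full L N) (laurentBaseChange_full L M) (laurentBaseChange_full L _)
    (laurentBaseChange_full L _) δ hδ (heckeAlphaBar L N ℓ) (heckeBetaBar L N ℓ)
    (coe_heckeAlphaBar N ℓ) (coe_heckeBetaBar N ℓ)
    (heckeAlphaBar L M ℓ) (heckeBetaBar L M ℓ) (coe_heckeAlphaBar M ℓ) (coe_heckeBetaBar M ℓ) x

theorem pullPic_heckeOperatorAlong {N M ℓ d : ℕ} [NeZero N] [NeZero M] [NeZero ℓ] [NeZero d]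
    (hℓ : ℓ.Prime) (hℓM : ¬ ℓ ∣ M) (hNd : N * d ∣ M)
    (δ : laurentBaseChange L (modularFunctionFieldFull N) →ₐ[L]
      laurentBaseChange L (modularFunctionFieldFull M))
    (hδ : ∀ x, (δ x : LaurentSeries L) = qExpand L d (x : LaurentSeries L))
    (x : Pic0 L (laurentBaseChange L (modularFunctionFieldFull N))) :
    pullPic δ (heckeOperatorAlong L N ℓ x) = heckeOperatorAlong L M ℓ (pullPic δ x) := by
  haveI : Fact ℓ.Prime := ⟨hℓ⟩
  rw [heckeOperatorAlong_apply, heckeOperatorAlong_apply]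
  exact pullPic_hecke (natCast_ne_zero' (NeZero.ne M)) (natCast_ne_zero' hℓ.ne_zero) hℓM hNd
    (laurentBaseChange_full L N) (laurentBaseChange_full L M) (laurentBaseChange_full L _)
    (laurentBaseChange_full L _) δ hδ (heckeAlphaBar L N ℓ) (heckeBetaBar L N ℓ)
    (coe_heckeAlphaBar N ℓ) (coe_heckeBetaBar N ℓ)
    (heckeAlphaBar L M ℓ) (heckeBetaBar L M ℓ) (coe_heckeAlphaBar M ℓ) (coe_heckeBetaBar M ℓ) x

/-- degeneracy maps commute with the Galois action on coefficients. -/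
theorem intertwines_dg {N M d : ℕ} [NeZero N] [NeZero M] [NeZero d]
    (δ : laurentBaseChange L (modularFunctionFieldFull N) →ₐ[L]
      laurentBaseChange L (modularFunctionFieldFull M))
    (hδ : ∀ x, (δ x : LaurentSeries L) = qExpand L d (x : LaurentSeries L)) (σ : L ≃ₐ[ℚ] L) :
    SemilinearAut.IntertwinesAlong δ.toRingHom (arithmeticGalois (modularFunctionFieldFull N) σ)
      (arithmeticGalois (modularFunctionFieldFull M) σ) := by
  intro x
  apply Subtype.ext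
  rw [coe_arithmeticGalois_smul]
  show coeffMap (σ : L →+* L) (δ x : LaurentSeries L) = (δ _ : LaurentSeries L)
  rw [hδ, hδ, coe_arithmeticGalois_smul, coeffMap_qExpand]

theorem pushPic_galois {N M d : ℕ} [NeZero N] [NeZero M] [NeZero d]
    (δ : laurentBaseChange L (modularFunctionFieldFull N) →ₐ[L]
      laurentBaseChange L (modularFunctionFieldFull M))
    (hδ : ∀ x, (δ x : LaurentSeries L) = qExpand L d (x : LaurentSeries L)) (σ : L ≃ₐ[ℚ] L)
    (x : Pic0 L (laurentBaseChange L (modularFunctionFieldFull M))) :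
    pushPic δ (σ • x) = σ • pushPic δ x :=
  pushPic_smul δ (intertwines_dg δ hδ σ) x

theorem pullPic_galois {N M d : ℕ} [NeZero N] [NeZero M] [NeZero d]
    (δ : laurentBaseChange L (modularFunctionFieldFull N) →ₐ[L]
      laurentBaseChange L (modularFunctionFieldFull M))
    (hδ : ∀ x, (δ x : LaurentSeries L) = qExpand L d (x : LaurentSeries L)) (σ : L ≃ₐ[ℚ] L)
    (x : Pic0 L (laurentBaseChange L (modularFunctionFieldFull N))) :
    pullPic δ (σ • x) = σ • pullPic δ x :=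
  pullPic_smul δ (intertwines_dg δ hδ σ) x

end Prelude

end Fermat.Agent.Degen
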