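import Fermat.Agent.HeckeRed.Inputs
import Fermat.Agent.WeilPairing.Nondeg

/-!
# Push-forward and pull-back along homomorphisms of function fields

`K` algebraically closed, `F`, `F'`, ... function fields of one variable over `K`.
-/

set_option autoImplicit false
set_option linter.unusedSectionVars false
set_option linter.style.haveILetI false

noncomputable section

open AlgebraicCurve Module

namespace Fermat.Agent.Degen

open Fermat.Agent.FunField Fermat.Agent.FunField.PlaceLemmas Fermat.Agent.HeckeRed

section Basic

variable {K F F' F'' : Type*} [Field K] [IsAlgClosed K] [Field F] [Field F'] [Field F'']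
  [Algebra K F] [Algebra K F'] [Algebra K F''] [IsFF K F] [IsFF K F'] [IsFF K F'']

/-- the place below -/
def res (φ : F →ₐ[K] F') (w : Place K F') : Place K F :=
  w.restrictAlong φ (isIntegral_of_isFF φ)

/-- push-forward of divisors -/
def push (φ : F →ₐ[K] F') : Divisor K F' →+ Divisor K F :=
  Divisor.pushforwardAlong φ (isIntegral_of_isFF φ)

/-- pull-back of divisors -/
def pull (φ : F →ₐ[K] F') : Divisor K F →+ Divisor K F' :=
  Divisor.pullbackAlong φ (isIntegral_of_isFF φ)

theorem inertiaDegAlong_eq_one (φ : F →ₐ[K] F') (hφ : φ.toRingHom.IsIntegral) (w : Place K F') :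
    w.inertiaDegAlong φ hφ = 1 := by
  letI := algebraAlong φ
  haveI := isScalarTower_along φ
  haveI : Module.Finite F F' := finiteAlong_of_isFF φ
  exact PushPull.inertiaDeg_eq_one w

@[simp]
theorem push_single (φ : F →ₐ[K] F') (w : Place K F') (n : ℤ) :
    push φ (Finsupp.single w n) = Finsupp.single (res φ w) n := by
  rw [push, Divisor.pushforwardAlong_single, inertiaDegAlong_eq_one]
  simp [res]

theorem push_eq_mapDomain (φ : F →ₐ[K] F') (D : Divisor K F') :
    push φ D = Finsupp.mapDomain (res φ) D := by
  have h : push φ = Finsupp.mapDomain.addMonoidHom (res φ) := by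
    refine Finsupp.addHom_ext fun w n => ?_
    rw [push_single]
    exact (Finsupp.mapDomain_single).symm
  rw [h]
  rfl

theorem mem_res_iff (φ : F →ₐ[K] F') (w : Place K F') (f : F) :
    f ∈ (res φ w).toValuationSubring ↔ φ f ∈ w.toValuationSubring := Iff.rfl

theorem place_ext {v w : Place K F}
    (h : ∀ f : F, f ∈ v.toValuationSubring ↔ f ∈ w.toValuationSubring) : v = w := by
  apply Place.ext
  exact SetLike.ext h

theorem res_res (φ : F →ₐ[K] F') (ψ : F' →ₐ[K] F'') (w : Place K F'') :
    res φ (res ψ w) = res (ψ.comp φ) w := by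
  apply place_ext
  intro f
  rfl

theorem res_eq_of_eq {φ φ' : F →ₐ[K] F'} (h : φ = φ') (w : Place K F') :
    res φ w = res φ' w := by rw [h]

theorem push_push (φ : F →ₐ[K] F') (ψ : F' →ₐ[K] F'') (D : Divisor K F'') :
    push φ (push ψ D) = push (ψ.comp φ) D := by
  have h : (push φ).comp (push ψ) = push (ψ.comp φ) := by
    refine Finsupp.addHom_ext fun w n => ?_
    rw [AddMonoidHom.comp_apply, push_single, push_single, push_single, res_res]
  exact DFunLike.congr_fun h D

theorem degree_push (φ : F →ₐ[K] F') (D : Divisor K F') :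
    Divisor.degree (push φ D) = Divisor.degree D := Divisor.degree_pushforwardAlong _ _ _

theorem degree_pull (φ : F →ₐ[K] F') (D : Divisor K F) :
    Divisor.degree (pull φ D) = (finrankAlong K φ : ℤ) * Divisor.degree D :=
  Divisor.degree_pullbackAlong _ _ (fundamentalIdentityAlong _ _ (finiteAlong_of_isFF _)) _

theorem pull_apply (φ : F →ₐ[K] F') (D : Divisor K F) (w : Place K F') :
    pull φ D w = Place.ramificationIndexAlong φ w * D (res φ w) :=
  Divisor.pullbackAlong_apply _ _ _ _

theorem push_divOf (φ : F →ₐ[K] F') {x : F'} (hx : x ≠ 0) :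
    push φ (divOf x) = divOf (normAlong φ x) :=
  pushforwardAlong_divOf φ _ (finiteAlong_of_isFF φ) hx

theorem pull_divOf (φ : F →ₐ[K] F') (x : F) : pull φ (divOf x) = divOf (φ x) :=
  pullbackAlong_divOf φ _ x

theorem ord_res (φ : F →ₐ[K] F') (w : Place K F') (f : F) :
    w.ord (φ f) = Place.ramificationIndexAlong φ w * (res φ w).ord f :=
  Place.ord_restrictAlong φ _ w f

theorem ramificationIndexAlong_pos (φ : F →ₐ[K] F') (w : Place K F') :
    0 < Place.ramificationIndexAlong φ w := by
  letI := algebraAlong φ
  haveI := isScalarTower_along φ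
  haveI : Module.Finite F F' := finiteAlong_of_isFF φ
  exact w.ramificationIndex_pos (F := F)

theorem exists_ord_one (v : Place K F) : ∃ f : F, f ≠ 0 ∧ v.ord f = 1 := by
  obtain ⟨f, hf0, hf⟩ := exists_forall_ord_eq (fun _ : Unit => v)
    (fun _ _ _ => rfl) (fun _ => 1)
  exact ⟨f, hf0, hf ()⟩

theorem ramificationIndexAlong_comp (φ : F →ₐ[K] F') (ψ : F' →ₐ[K] F'') (w : Place K F'') :
    Place.ramificationIndexAlong (ψ.comp φ) w =
      Place.ramificationIndexAlong ψ w * Place.ramificationIndexAlong φ (res ψ w) := by
  obtain ⟨f, hf0, hf⟩ := exists_ord_one (res (ψ.comp φ) w)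
  have h1 := ord_res (ψ.comp φ) w f
  rw [hf, mul_one] at h1
  have h2 := ord_res ψ w (φ f)
  rw [ord_res φ, res_res, hf, mul_one] at h2
  have h3 : (ψ.comp φ) f = ψ (φ f) := rfl
  rw [h3, h2] at h1
  exact_mod_cast h1.symm

theorem pull_pull (φ : F →ₐ[K] F') (ψ : F' →ₐ[K] F'') (D : Divisor K F) :
    pull ψ (pull φ D) = pull (ψ.comp φ) D := by
  ext w
  rw [pull_apply, pull_apply, pull_apply, ramificationIndexAlong_comp, res_res]
  push_cast
  ring

theorem push_pull (φ : F →ₐ[K] F') (D : Divisor K F) :
    push φ (pull φ D) = finrankAlong K φ • D := by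
  classical
  induction D using Finsupp.induction with
  | zero => simp
  | single_add v n D _ _ ih =>
    rw [map_add, map_add, ih, smul_add]
    congr 1
    have h1 : pull φ (Finsupp.single v n) = ∑ W ∈ Place.fiberAlong φ (isIntegral_of_isFF φ) v,
          Finsupp.single W (n * W.ramificationIndexAlong φ) :=
      Divisor.pullbackAlong_single _ _ _ _
    have h2 := degree_pull φ (Finsupp.single v n)
    rw [h1, map_sum] at h2
    simp only [Divisor.degree_single, Deuring.deg_eq_one, Nat.cast_one, mul_one] at h2
    rw [h1, map_sum]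
    have h3 : ∀ W ∈ Place.fiberAlong φ (isIntegral_of_isFF φ) v,
        push φ (Finsupp.single W (n * (W.ramificationIndexAlong φ : ℤ))) =
          Finsupp.single v (n * (W.ramificationIndexAlong φ : ℤ)) := by
      intro W hW
      rw [push_single]
      congr 1
      exact Place.mem_fiberAlong.mp hW
    rw [Finset.sum_congr rfl h3, ← Finsupp.single_finsetSum, h2, Finsupp.smul_single,
      nsmul_eq_mul]

/-- places over a given place and arbitrary prescribed orders there -/
theorem exists_forall_res_eq (φ : F →ₐ[K] F') (v : Place K F) (n : Place K F' → ℤ) :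
    ∃ f : F', f ≠ 0 ∧ ∀ w, res φ w = v → w.ord f = n w := by
  let S := {w : Place K F' // w ∈ Place.fiberAlong φ (isIntegral_of_isFF φ) v}
  obtain ⟨f, hf0, hf⟩ := exists_forall_ord_eq (fun w : S => (w : Place K F'))
    Subtype.val_injective (fun w => n w)
  exact ⟨f, hf0, fun w hw => hf ⟨w, Place.mem_fiberAlong.mpr hw⟩⟩

theorem push_apply_eq_zero (φ : F →ₐ[K] F') {D : Divisor K F'} {v : Place K F}
    (h : ∀ w : Place K F', res φ w = v → D w = 0) : push φ D v = 0 := by
  letI := algebraAlong φ
  haveI := isScalarTower_along φ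
  haveI : Module.Finite F F' := finiteAlong_of_isFF φ
  exact WeilPairing.pushforward_apply_eq_zero h

theorem push_apply_congr (φ : F →ₐ[K] F') {D D' : Divisor K F'} {v : Place K F}
    (h : ∀ w : Place K F', res φ w = v → D w = D' w) : push φ D v = push φ D' v := by
  have h1 : push φ (D - D') v = 0 := push_apply_eq_zero φ fun w hw => by
    rw [Finsupp.sub_apply, h w hw, sub_self]
  rwa [map_sub, Finsupp.sub_apply, sub_eq_zero] at h1

theorem pull_apply_congr (φ : F →ₐ[K] F') {D D' : Divisor K F} {w : Place K F'}
    (h : D (res φ w) = D' (res φ w)) : pull φ D w = pull φ D' w := by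
  rw [pull_apply, pull_apply, h]

end Basic

section Square

/-! ### base change -/

variable {K F E E' M : Type*} [Field K] [IsAlgClosed K] [Field F] [Field E] [Field E'] [Field M]
  [Algebra K F] [Algebra K E] [Algebra K E'] [Algebra K M]
  [IsFF K F] [IsFF K E] [IsFF K E'] [IsFF K M]

/-- A commutative square of function fields in which norms are compatible has base change
for divisors. -/
theorem pull_push_of_norm (α : F →ₐ[K] E') (β : F →ₐ[K] E) (α' : E →ₐ[K] M) (β' : E' →ₐ[K] M)
    (hsq : α'.comp β = β'.comp α)
    (hN : ∀ f : E', f ≠ 0 → β (normAlong α f) = normAlong α' (β' f)) (D : Divisor K E') :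
    pull β (push α D) = push α' (pull β' D) := by
  classical
  have hprin : ∀ f : E', f ≠ 0 → pull β (push α (divOf f)) = push α' (pull β' (divOf f)) := by
    intro f hf
    rw [push_divOf α hf, pull_divOf, pull_divOf, push_divOf, hN f hf]
    simpa using hf
  ext Q
  -- the value at `Q` only depends on the values of `D` over `res β Q`
  have hres : ∀ R : Place K M, res α' R = Q → res α (res β' R) = res β Q := by
    intro R hR
    rw [res_res, ← hsq, ← res_res, hR]
  have hcongr : ∀ D D' : Divisor K E', (∀ P, res α P = res β Q → D P = D' P) →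
      pull β (push α D) Q = pull β (push α D') Q ∧
      push α' (pull β' D) Q = push α' (pull β' D') Q := by
    intro D D' h
    refine ⟨pull_apply_congr β (push_apply_congr α h), ?_⟩
    exact push_apply_congr α' fun R hR => pull_apply_congr β' (h _ (hres R hR))
  obtain ⟨f, hf0, hf⟩ := exists_forall_res_eq α (res β Q) D
  obtain ⟨h1, h2⟩ := hcongr D (divOf f) (fun P hP => by rw [divOf_apply, hf P hP])
  rw [h1, h2, hprin f hf0]

/-- If `M` is generated by `E` and `E'` and `[M : E] = [E' : F]` then norms are compatible with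
base change. -/
theorem normAlong_baseChange (α : F →ₐ[K] E') (β : F →ₐ[K] E) (α' : E →ₐ[K] M)
    (β' : E' →ₐ[K] M) (hsq : α'.comp β = β'.comp α)
    (hgen : ∀ S : Subfield M, (∀ x, α' x ∈ S) → (∀ x, β' x ∈ S) → S = ⊤)
    (hdeg : finrankAlong K α' = finrankAlong K α) (f : E') :
    β (normAlong α f) = normAlong α' (β' f) := by
  letI a1 : Algebra F E' := algebraAlong α
  letI a2 : Algebra F E := algebraAlong β
  letI a3 : Algebra E M := algebraAlong α'
  letI a4 : Algebra E' M := algebraAlong β'
  letI a5 : Algebra F M := (α'.comp β).toRingHom.toAlgebra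
  haveI t1 : IsScalarTower F E M := IsScalarTower.of_algebraMap_eq fun x => rfl
  haveI t2 : IsScalarTower F E' M := IsScalarTower.of_algebraMap_eq fun x =>
    DFunLike.congr_fun hsq x
  haveI f1 : Module.Finite F E' := finiteAlong_of_isFF α
  haveI f2 : Module.Finite F E := finiteAlong_of_isFF β
  haveI f3 : Module.Finite E M := finiteAlong_of_isFF α'
  have hdeg' : Module.finrank E M = Module.finrank F E' := hdeg
  -- the map `E ⊗ E' → M`
  let m : TensorProduct F E E' →ₐ[E] M :=
    Algebra.TensorProduct.lift (Algebra.ofId E M) (IsScalarTower.toAlgHom F E' M)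
      (fun _ _ => mul_comm _ _)
  have hm1 : ∀ x, m (1 ⊗ₜ x) = β' x := by
    intro x
    refine (Algebra.TensorProduct.lift_tmul _ _ _ _ _).trans ?_
    rw [map_one, one_mul]
    rfl
  have hsurj : Function.Surjective m := by
    have hint : Algebra.IsIntegral E M := Algebra.IsIntegral.of_finite E M
    let S : Subfield M :=
      { m.range.toSubring with
        inv_mem' := by
          intro x hx
          have hx' : x ∈ m.range := hx
          show x⁻¹ ∈ m.range
          exact m.range.inv_mem_of_algebraic (x := ⟨x, hx'⟩)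
            ((Algebra.IsAlgebraic.isAlgebraic (R := E) x)) }
    have hS : S = ⊤ := by
      apply hgen
      · intro x
        show α' x ∈ m.range
        exact ⟨algebraMap E _ x, m.commutes x⟩
      · intro x
        show β' x ∈ m.range
        exact ⟨_, hm1 x⟩
    intro x
    have hx : x ∈ S := by rw [hS]; trivial
    exact hx
  have hrank : Module.finrank E (TensorProduct F E E') = Module.finrank E M := by
    rw [Module.finrank_baseChange, hdeg']
  have hbij : Function.Bijective m := by
    refine ⟨?_, hsurj⟩
    have := (LinearMap.injective_iff_surjective_of_finrank_eq_finrank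
      (f := m.toLinearMap) hrank).mpr hsurj
    exact this
  let e : TensorProduct F E E' ≃ₐ[E] M := AlgEquiv.ofBijective m hbij
  have h1 : Algebra.norm E ((1 : E) ⊗ₜ[F] f) = Algebra.norm E (β' f) := by
    rw [← Algebra.norm_eq_of_algEquiv e]
    congr 1
    exact hm1 f
  show algebraMap F E (Algebra.norm F f) = Algebra.norm E (β' f)
  rw [← h1, Algebra.norm_apply, Algebra.norm_apply, ← LinearMap.det_baseChange]
  congr 1
  ext x
  simp

end Square

end Fermat.Agent.Degen
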